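import Fermat.Agent.MVCharSum.Smooth
import Fermat.Agent.BombieriVinogradov.Characters
import Mathlib.Analysis.SpecialFunctions.Trigonometric.Bounds

/-!
# Montgomery and Vaughan: `∑_{n ≤ N} χ n = O (√q log log q)` on GRH

Pólya's finite Fourier expansion reduces the sum to `∑_{a ≤ q/2} χ a (1 - e (a N / q)) / a`;
imprimitive characters follow from the primitive ones.
-/

set_option autoImplicit false

noncomputable section

namespace FA.MVCharSum

open Finset DirichletCharacter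
open FA.ThreePrimes (eAdd norm_eAdd eAdd_add eAdd_zero geomSum)
open FA.Gallagher (primOf primOf_apply primOf_eq_one_iff)
open scoped Real ArithmeticFunction.Moebius

theorem geomSum_mul (N : ℕ) (θ : ℝ) :
    geomSum N θ * (eAdd (-θ) - 1) = 1 - eAdd (N * θ) := by
  induction N with
  | zero => simp [geomSum]
  | succ N ih =>
    rw [geomSum] at ih ⊢
    rw [sum_Ioc_succ_top (Nat.zero_le N), add_mul, ih, mul_sub, ← eAdd_add]
    push_cast
    rw [show ((N : ℝ) + 1) * θ + -θ = N * θ by ring]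
    ring

theorem norm_eAdd_sub_one_ge {θ : ℝ} (h : |θ| ≤ 1 / 2) : 4 * |θ| ≤ ‖eAdd θ - 1‖ := by
  have e : eAdd θ = Complex.exp (Complex.I * ((2 * π * θ : ℝ) : ℂ)) := by rw [eAdd, mul_comm]
  rw [e, Complex.norm_exp_I_mul_ofReal_sub_one, Real.norm_eq_abs, abs_mul, abs_two,
    show (2 * π * θ) / 2 = π * θ by ring]
  have h1 := Real.mul_abs_le_abs_sin (x := π * θ) (by
    rw [abs_mul, abs_of_pos Real.pi_pos]
    nlinarith [Real.pi_pos])
  rw [abs_mul, abs_of_pos Real.pi_pos, ← mul_assoc, div_mul_cancel₀ _ Real.pi_ne_zero] at h1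
  linarith

/-- The kernel is `-1 / (2 π i θ) + O (1)`. -/
theorem norm_kernel_le {θ : ℝ} (h0 : θ ≠ 0) (h : |θ| ≤ 1 / 2) :
    ‖(eAdd (-θ) - 1)⁻¹ + (2 * π * θ * Complex.I : ℂ)⁻¹‖ ≤ 6 := by
  obtain ⟨w, hw⟩ : ∃ w : ℂ, w = ((2 * π * -θ : ℝ) : ℂ) * Complex.I := ⟨_, rfl⟩
  have e1 : eAdd (-θ) = Complex.exp w := by rw [eAdd, hw]
  have e2 : (2 * π * θ * Complex.I : ℂ) = -w := by rw [hw]; push_cast; ring
  have hwn : ‖w‖ = 2 * π * |θ| := by
    rw [hw, norm_mul, Complex.norm_I, mul_one, Complex.norm_real, Real.norm_eq_abs, abs_mul,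
      abs_neg, abs_of_pos Real.two_pi_pos]
  have hw0 : 0 < ‖w‖ := hwn ▸ mul_pos Real.two_pi_pos (abs_pos.2 h0)
  have hden : 2 / π * ‖w‖ ≤ ‖Complex.exp w - 1‖ := by
    have h4 := norm_eAdd_sub_one_ge (θ := -θ) (by rwa [abs_neg])
    rw [abs_neg, e1] at h4
    refine le_trans (le_of_eq ?_) h4
    rw [hwn]
    field_simp
    ring
  have hne : Complex.exp w - 1 ≠ 0 := fun e => by
    rw [e, norm_zero] at hden
    have : 0 < 2 / π * ‖w‖ := by positivity
    linarith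
  have hwne : w ≠ 0 := norm_pos_iff.1 hw0
  rw [e1, e2]
  have e3 : (Complex.exp w - 1)⁻¹ + (-w)⁻¹ =
      -(Complex.exp w - 1 - w) / ((Complex.exp w - 1) * w) := by
    field_simp
    ring
  have hnum : ‖Complex.exp w - 1 - w‖ ≤ 3 * ‖w‖ ^ 2 := by
    rcases le_or_gt ‖w‖ 1 with h1 | h1
    · exact (Complex.norm_exp_sub_one_sub_id_le h1).trans (by nlinarith)
    · have he : ‖Complex.exp w‖ = 1 := by rw [hw, Complex.norm_exp_ofReal_mul_I]
      calc ‖Complex.exp w - 1 - w‖ ≤ ‖Complex.exp w‖ + ‖(1 : ℂ)‖ + ‖w‖ :=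
            (norm_sub_le _ _).trans (add_le_add_left (norm_sub_le _ _) _)
        _ ≤ _ := by rw [he, norm_one]; nlinarith
  rw [e3, norm_div, norm_neg, norm_mul, div_le_iff₀ (mul_pos (norm_pos_iff.2 hne) hw0)]
  refine hnum.trans ?_
  have hpi : 3 * π / 2 ≤ 6 := by linarith [Real.pi_le_four]
  calc 3 * ‖w‖ ^ 2 = 3 * π / 2 * ((2 / π * ‖w‖) * ‖w‖) := by field_simp
    _ ≤ 6 * (‖Complex.exp w - 1‖ * ‖w‖) := by
        refine mul_le_mul hpi ?_ (by positivity) (by norm_num)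
        exact mul_le_mul_of_nonneg_right hden hw0.le

variable {q : ℕ} [NeZero q]

/-- `F a = ψ a ∑_{n ≤ N} e (a n / q)`. -/
def polyaTerm (ψ : DirichletCharacter ℂ q) (N : ℕ) (a : ZMod q) : ℂ :=
  ψ a * ∑ n ∈ Ioc 0 N, ZMod.stdAddChar ((n : ZMod q) * a)

theorem gauss_mul_sum {χ : DirichletCharacter ℂ q} (hχ : χ.IsPrimitive) (N : ℕ) :
    gaussSum χ⁻¹ ZMod.stdAddChar * ∑ n ∈ Ioc 0 N, χ n = ∑ a : ZMod q, polyaTerm χ⁻¹ N a := by
  have hχ' : χ⁻¹.IsPrimitive := (DirichletCharacter.conductor_inv χ).trans hχ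
  simp only [polyaTerm, mul_sum]
  rw [sum_comm]
  refine sum_congr rfl fun n _ => ?_
  have h := gaussSum_mulShift_of_isPrimitive (e := ZMod.stdAddChar) hχ' (n : ZMod q)
  rw [inv_inv, gaussSum] at h
  rw [mul_comm (gaussSum _ _), ← h]
  exact sum_congr rfl fun a _ => by rw [AddChar.mulShift_apply]

theorem sum_zmod_halves (F : ZMod q → ℂ) (h0 : F 0 = 0) :
    ∑ a : ZMod q, F a = (∑ j ∈ Ioc 0 (q / 2), F ((1 * (j : ℤ) : ℤ) : ZMod q)) +
      ∑ j ∈ Ioc 0 (q - q / 2 - 1), F (((-1) * (j : ℤ) : ℤ) : ZMod q) := by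
  have hq := NeZero.pos q
  have e1 : ∑ a : ZMod q, F a = ∑ j ∈ range q, F (j : ZMod q) :=
    sum_nbij' (fun a => a.val) (fun j => (j : ZMod q)) (fun a _ => mem_range.2 a.val_lt)
      (fun j _ => mem_univ _) (fun a _ => ZMod.natCast_zmod_val a)
      (fun j hj => ZMod.val_cast_of_lt (mem_range.1 hj))
      fun a _ => by rw [ZMod.natCast_zmod_val]
  have e2 : range q = insert 0 (Ioc 0 (q - 1)) := by
    ext j
    simp
    omega
  rw [e1, e2, sum_insert (by simp), Nat.cast_zero, h0, zero_add,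
    ← sum_Ioc_consecutive _ (Nat.zero_le (q / 2)) (show q / 2 ≤ q - 1 by omega)]
  congr 1
  · exact sum_congr rfl fun j _ => by rw [one_mul, Int.cast_natCast]
  · refine sum_nbij' (fun j => q - j) (fun j => q - j) (fun j hj => ?_) (fun j hj => ?_)
      (fun j hj => ?_) (fun j hj => ?_) (fun j hj => ?_)
    · simp only [mem_Ioc] at hj ⊢; omega
    · simp only [mem_Ioc] at hj ⊢; omega
    · simp only [mem_Ioc] at hj; omega
    · simp only [mem_Ioc] at hj; omega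
    · simp only [mem_Ioc] at hj
      congr 1
      push_cast [Nat.cast_sub (show j ≤ q by omega)]
      simp

/-- One half of Pólya's sum. -/
theorem norm_half_le {ψ : DirichletCharacter ℂ q} {B : ℝ}
    (hB : ∀ (α : ℝ) (H : ℕ), H ≤ q → ‖∑ n ∈ Ioc 0 H, ψ n * eAdd (n * α) / n‖ ≤ B)
    (N H : ℕ) (hH : 2 * H ≤ q) {s : ℤ} (hs : s = 1 ∨ s = -1) :
    ‖∑ j ∈ Ioc 0 H, polyaTerm ψ N ((s * (j : ℤ) : ℤ) : ZMod q)‖ ≤ q * B + 12 * q := by
  have hs1 : |(s : ℝ)| = 1 := by rcases hs with rfl | rfl <;> simp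
  have hsne : (s : ℝ) ≠ 0 := fun e => by rw [e] at hs1; simp at hs1
  have hq0 : (0 : ℝ) < q := Nat.cast_pos.2 (NeZero.pos q)
  have hB0 : 0 ≤ B := le_trans (norm_nonneg _) (hB 0 0 (Nat.zero_le _))
  obtain ⟨θ, hθ⟩ : ∃ θ : ℕ → ℝ, θ = fun j : ℕ => (s : ℝ) * j / q := ⟨_, rfl⟩
  obtain ⟨α, hα⟩ : ∃ α : ℝ, α = (N : ℝ) * s / q := ⟨_, rfl⟩
  obtain ⟨M, hM⟩ : ∃ M : ℂ, M = -ψ (s : ZMod q) * ((q : ℂ) / (2 * π * s * Complex.I)) := ⟨_, rfl⟩
  have hterm : ∀ j ∈ Ioc 0 H, ‖polyaTerm ψ N ((s * (j : ℤ) : ℤ) : ZMod q) -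
      M * (ψ j * eAdd (j * 0) / j - ψ j * eAdd (j * α) / j)‖ ≤ 12 := by
    intro j hj
    rw [mem_Ioc] at hj
    have hj0 : (0 : ℝ) < j := Nat.cast_pos.2 hj.1
    have e1 : ∑ n ∈ Ioc 0 N, ZMod.stdAddChar ((n : ZMod q) * ((s * (j : ℤ) : ℤ) : ZMod q)) =
        geomSum N (θ j) := by
      refine sum_congr rfl fun n _ => ?_
      rw [← Int.cast_natCast (R := ZMod q) n, ← Int.cast_mul, ZMod.stdAddChar_coe, hθ, eAdd]
      congr 1
      push_cast
      ring
    have hθ0 : θ j ≠ 0 := by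
      rw [hθ]
      exact div_ne_zero (mul_ne_zero hsne hj0.ne') hq0.ne'
    have hθh : |θ j| ≤ 1 / 2 := by
      rw [hθ, abs_div, abs_mul, hs1, one_mul, Nat.abs_cast, Nat.abs_cast, div_le_iff₀ hq0]
      have : ((2 * j : ℕ) : ℝ) ≤ q := Nat.cast_le.2 (by omega)
      push_cast at this
      linarith
    have hne : eAdd (-θ j) - 1 ≠ 0 := fun e => by
      have h4 := norm_eAdd_sub_one_ge (θ := -θ j) (by rwa [abs_neg])
      rw [e, norm_zero, abs_neg] at h4
      linarith [abs_pos.2 hθ0]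
    have e2 : geomSum N (θ j) = (1 - eAdd (j * α)) * (eAdd (-θ j) - 1)⁻¹ := by
      rw [eq_mul_inv_iff_mul_eq₀ hne, geomSum_mul]
      simp only [hθ, hα]
      ring_nf
    have e3 : M * (ψ j * eAdd (j * 0) / j - ψ j * eAdd (j * α) / j) =
        -(ψ ((s * (j : ℤ) : ℤ) : ZMod q) * (1 - eAdd (j * α)) *
          (2 * π * θ j * Complex.I : ℂ)⁻¹) := by
      rw [hM, mul_zero, eAdd_zero, Int.cast_mul, map_mul, Int.cast_natCast, hθ]
      push_cast
      have : (j : ℂ) ≠ 0 := Nat.cast_ne_zero.2 (by omega)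
      have : (q : ℂ) ≠ 0 := Nat.cast_ne_zero.2 (NeZero.ne q)
      have : (s : ℂ) ≠ 0 := Int.cast_ne_zero.2 (by rcases hs with rfl | rfl <;> simp)
      have : (π : ℂ) ≠ 0 := Complex.ofReal_ne_zero.2 Real.pi_ne_zero
      field_simp
    rw [polyaTerm, e1, e2, e3, sub_neg_eq_add, ← mul_assoc, ← mul_add, norm_mul, norm_mul]
    have h2 : ‖1 - eAdd (j * α)‖ ≤ 2 := (norm_sub_le _ _).trans (by
      rw [norm_one, norm_eAdd]
      norm_num)
    calc ‖ψ ((s * (j : ℤ) : ℤ) : ZMod q)‖ * ‖1 - eAdd (j * α)‖ *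
          ‖(eAdd (-θ j) - 1)⁻¹ + (2 * π * θ j * Complex.I : ℂ)⁻¹‖ ≤ 1 * 2 * 6 :=
          mul_le_mul (mul_le_mul (ψ.norm_le_one _) h2 (norm_nonneg _) zero_le_one)
            (norm_kernel_le hθ0 hθh) (norm_nonneg _) (by norm_num)
      _ = 12 := by norm_num
  have hmain : ‖∑ j ∈ Ioc 0 H, M * (ψ j * eAdd (j * 0) / j - ψ j * eAdd (j * α) / j)‖ ≤
      q * B := by
    rw [← mul_sum, sum_sub_distrib, norm_mul]
    have hHq : H ≤ q := by omega
    have hMn : ‖M‖ ≤ q / 2 := by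
      rw [hM, norm_mul, norm_neg, norm_div, Complex.norm_natCast]
      have hd : ‖(2 * π * s * Complex.I : ℂ)‖ = 2 * π := by
        rw [norm_mul, norm_mul, norm_mul, Complex.norm_I, Complex.norm_two, Complex.norm_real,
          Real.norm_of_nonneg Real.pi_pos.le, mul_one,
          show ((s : ℂ)) = ((s : ℝ) : ℂ) by simp, Complex.norm_real, Real.norm_eq_abs, hs1,
          mul_one]
      rw [hd]
      refine (mul_le_of_le_one_left (by positivity) (ψ.norm_le_one _)).trans ?_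
      exact div_le_div_of_nonneg_left hq0.le two_pos (by nlinarith [Real.pi_gt_three])
    calc ‖M‖ * ‖(∑ j ∈ Ioc 0 H, ψ j * eAdd (j * 0) / j) -
          ∑ j ∈ Ioc 0 H, ψ j * eAdd (j * α) / j‖ ≤ q / 2 * (B + B) :=
          mul_le_mul hMn ((norm_sub_le _ _).trans (add_le_add (hB 0 H hHq) (hB α H hHq)))
            (norm_nonneg _) (by positivity)
      _ = _ := by ring
  have herr : ‖∑ j ∈ Ioc 0 H, (polyaTerm ψ N ((s * (j : ℤ) : ℤ) : ZMod q) -
      M * (ψ j * eAdd (j * 0) / j - ψ j * eAdd (j * α) / j))‖ ≤ 12 * q := by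
    refine (norm_sum_le_of_le _ hterm).trans ?_
    rw [sum_const, Nat.card_Ioc, nsmul_eq_mul, mul_comm, Nat.sub_zero]
    exact mul_le_mul_of_nonneg_left (Nat.cast_le.2 (by omega)) (by norm_num)
  have e : ∑ j ∈ Ioc 0 H, polyaTerm ψ N ((s * (j : ℤ) : ℤ) : ZMod q) =
      ∑ j ∈ Ioc 0 H, M * (ψ j * eAdd (j * 0) / j - ψ j * eAdd (j * α) / j) +
      ∑ j ∈ Ioc 0 H, (polyaTerm ψ N ((s * (j : ℤ) : ℤ) : ZMod q) -
        M * (ψ j * eAdd (j * 0) / j - ψ j * eAdd (j * α) / j)) := by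
    rw [← sum_add_distrib]
    exact sum_congr rfl fun j _ => by ring
  rw [e]
  exact (norm_add_le _ _).trans (add_le_add hmain herr)

theorem loglog_three_pos : 0 < Real.log (Real.log 3) := by
  refine Real.log_pos ?_
  rw [Real.lt_log_iff_exp_lt three_pos]
  linarith [Real.exp_one_lt_d9]

theorem loglog_mono {a b : ℕ} (ha : 3 ≤ a) (hab : a ≤ b) :
    Real.log (Real.log a) ≤ Real.log (Real.log b) :=
  Real.log_le_log (zero_lt_one.trans_le (log_nat_ge_one ha))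
    (Real.log_le_log (Nat.cast_pos.2 (by omega)) (Nat.cast_le.2 hab))

/-- **Primitive characters.** -/
theorem exists_primitive_bound : ∃ C, 0 ≤ C ∧ (GRHAll → ∀ (q : ℕ) [NeZero q]
    (χ : DirichletCharacter ℂ q), χ.IsPrimitive → 3 ≤ q → ∀ N : ℕ,
      ‖∑ n ∈ Ioc 0 N, χ n‖ ≤ C * √(q : ℝ) * Real.log (Real.log q)) := by
  obtain ⟨C, hC, h⟩ := exists_twisted_harmonic
  refine ⟨2 * C + 24 / Real.log (Real.log 3),
    add_nonneg (by positivity) (div_nonneg (by norm_num) loglog_three_pos.le),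
    fun hG q _ χ hp hq N => ?_⟩
  obtain ⟨l, hl⟩ : ∃ l, l = Real.log (Real.log q) := ⟨_, rfl⟩
  have hl3 : Real.log (Real.log 3) ≤ l := by
    have := loglog_mono le_rfl hq
    rw [hl]
    exact_mod_cast this
  have hp' : χ⁻¹.IsPrimitive := (DirichletCharacter.conductor_inv χ).trans hp
  have hB : ∀ (α : ℝ) (H : ℕ), H ≤ q →
      ‖∑ n ∈ Ioc 0 H, χ⁻¹ n * eAdd (n * α) / n‖ ≤ C * l := fun α H hH =>
    hl ▸ h hG q χ⁻¹ hp' hq α H hH
  have h0 : polyaTerm χ⁻¹ N 0 = 0 := by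
    have : Fact (1 < q) := ⟨by omega⟩
    rw [polyaTerm, MulChar.map_nonunit _ not_isUnit_zero, zero_mul]
  have hsum : ‖∑ a : ZMod q, polyaTerm χ⁻¹ N a‖ ≤ 2 * (q * (C * l) + 12 * q) := by
    rw [sum_zmod_halves _ h0, two_mul]
    exact (norm_add_le _ _).trans (add_le_add
      (norm_half_le hB N (q / 2) (by omega) (Or.inl rfl))
      (norm_half_le hB N (q - q / 2 - 1) (by omega) (Or.inr rfl)))
  rw [← gauss_mul_sum hp, norm_mul, BombieriVinogradov.norm_gauss hp'] at hsum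
  have hq0 : 0 < √(q : ℝ) := Real.sqrt_pos.2 (Nat.cast_pos.2 (by omega))
  rw [← le_div_iff₀' hq0] at hsum
  refine hsum.trans ?_
  rw [← hl]
  have h24 : 24 ≤ 24 / Real.log (Real.log 3) * l := by
    rw [div_mul_eq_mul_div, le_div_iff₀ loglog_three_pos]
    exact mul_le_mul_of_nonneg_left hl3 (by norm_num)
  calc 2 * ((q : ℝ) * (C * l) + 12 * q) / √(q : ℝ) = ((q : ℝ) / √(q : ℝ)) * (2 * C * l + 24) := by
        ring
    _ = √(q : ℝ) * (2 * C * l + 24) := by rw [Real.div_sqrt]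
    _ ≤ √(q : ℝ) * (2 * C * l + 24 / Real.log (Real.log 3) * l) := by gcongr
    _ = _ := by ring

theorem card_divisors_le_sqrt {n : ℕ} (hn : n ≠ 0) :
    (n.divisors.card : ℝ) ≤ 2 * √(n : ℝ) := by
  have h : n.divisors ⊆ Icc 1 (Nat.sqrt n) ∪ (Icc 1 (Nat.sqrt n)).image (n / ·) := fun d hd => by
    obtain ⟨hdn, -⟩ := Nat.mem_divisors.1 hd
    have hd0 : 0 < d := Nat.pos_of_dvd_of_pos hdn (Nat.pos_of_ne_zero hn)
    rcases le_or_gt d (Nat.sqrt n) with h1 | h1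
    · exact mem_union_left _ (mem_Icc.2 ⟨hd0, h1⟩)
    · refine mem_union_right _ (mem_image.2 ⟨n / d, mem_Icc.2 ⟨?_, ?_⟩, Nat.div_div_self hdn hn⟩)
      · exact (Nat.one_le_div_iff hd0).2 (Nat.le_of_dvd (Nat.pos_of_ne_zero hn) hdn)
      · by_contra hgt
        have h2 := Nat.mul_le_mul (show Nat.sqrt n + 1 ≤ n / d by omega)
          (show Nat.sqrt n + 1 ≤ d by omega)
        rw [Nat.div_mul_cancel hdn] at h2
        exact absurd h2 (not_le.2 (Nat.lt_succ_sqrt n))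
  have h1 := (card_le_card h).trans ((card_union_le _ _).trans
    (add_le_add_right card_image_le _))
  rw [Nat.card_Icc, Nat.add_sub_cancel] at h1
  have h2 : (n.divisors.card : ℝ) ≤ (Nat.sqrt n : ℝ) + Nat.sqrt n := by exact_mod_cast h1
  linarith [Real.nat_sqrt_le_real_sqrt (a := n)]

/-- **Montgomery and Vaughan.** -/
theorem exists_charSum_bound : ∃ C, 0 ≤ C ∧ (GRHAll → ∀ (q : ℕ) [NeZero q]
    (χ : DirichletCharacter ℂ q), χ ≠ 1 → ∀ N : ℕ,
      ‖∑ n ∈ Ioc 0 N, χ n‖ ≤ C * √(q : ℝ) * Real.log (Real.log q)) := by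
  obtain ⟨C, hC, h⟩ := exists_primitive_bound
  refine ⟨2 * C, by positivity, fun hG q _ χ hχ N => ?_⟩
  obtain ⟨d, hd⟩ : ∃ d, d = (primOf χ).1 := ⟨_, rfl⟩
  have hdq : d ∣ q := hd ▸ χ.conductor_dvd_level
  have : NeZero (primOf χ).1 := ⟨χ.conductor_ne_zero⟩
  obtain ⟨ψ, hψ⟩ : ∃ ψ, ψ = (primOf χ).2 := ⟨_, rfl⟩
  have hψ1 : ψ ≠ 1 := hψ ▸ fun e => hχ ((primOf_eq_one_iff χ).1 e)
  have hd3 : 3 ≤ (primOf χ).1 := by
    by_contra hlt
    have hunit : ∀ u : (ZMod (primOf χ).1)ˣ, u = 1 := by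
      intro u
      have h12 : (primOf χ).1 = 1 ∨ (primOf χ).1 = 2 := by
        have := NeZero.ne (primOf χ).1
        omega
      have hc : Fintype.card (ZMod (primOf χ).1)ˣ = 1 := by
        rw [ZMod.card_units_eq_totient]
        rcases h12 with e | e <;> rw [e] <;> rfl
      exact Fintype.card_le_one_iff.1 hc.le u 1
    exact hψ1 (MulChar.ext fun u => by rw [hunit u, MulChar.one_apply_coe, Units.val_one, map_one])
  have hmob : ∀ n ∈ Ioc 0 N, (χ (n : ZMod q)) = ∑ e ∈ q.divisors,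
      if e ∣ n then (μ e : ℂ) * ψ (n : ZMod (primOf χ).1) else 0 := by
    intro n _
    rw [← sum_filter, ← sum_mul]
    have e1 : q.divisors.filter (fun e => e ∣ n) = (Nat.gcd n q).divisors := by
      ext e
      simp only [mem_filter, Nat.mem_divisors, Nat.dvd_gcd_iff]
      exact ⟨fun h => ⟨⟨h.2, h.1.1⟩, Nat.gcd_ne_zero_right (NeZero.ne q)⟩,
        fun h => ⟨⟨h.1.2, NeZero.ne q⟩, h.1.1⟩⟩
    have e2 : (∑ e ∈ (Nat.gcd n q).divisors, (μ e : ℂ)) =
        if Nat.gcd n q = 1 then 1 else 0 := by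
      rw [← Int.cast_sum, ← ArithmeticFunction.coe_mul_zeta_apply,
        ArithmeticFunction.moebius_mul_coe_zeta, ArithmeticFunction.one_apply]
      split_ifs <;> simp
    rw [e1, e2]
    by_cases hc : n.Coprime q
    · rw [if_pos hc, one_mul, hψ, primOf_apply χ hc]
    · rw [if_neg hc, zero_mul,
        MulChar.map_nonunit χ fun hu => hc ((ZMod.isUnit_iff_coprime n q).1 hu)]
  rw [sum_congr rfl hmob, sum_comm]
  obtain ⟨B, hB⟩ : ∃ B, B = C * √(d : ℝ) * Real.log (Real.log q) := ⟨_, rfl⟩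
  have hll : 0 ≤ Real.log (Real.log q) :=
    loglog_three_pos.le.trans (by
      have := loglog_mono le_rfl (hd3.trans (Nat.le_of_dvd (NeZero.pos q) (hd ▸ hdq)))
      exact_mod_cast this)
  have hB0 : 0 ≤ B := hB ▸ by positivity
  have hterm : ∀ e ∈ q.divisors, ‖∑ n ∈ Ioc 0 N,
      if e ∣ n then (μ e : ℂ) * ψ (n : ZMod (primOf χ).1) else 0‖ ≤
        if e ∈ (q / d).divisors then B else 0 := by
    intro e he
    have he0 : 0 < e := Nat.pos_of_mem_divisors he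
    have e1 : (∑ n ∈ Ioc 0 N, if e ∣ n then (μ e : ℂ) * ψ (n : ZMod (primOf χ).1) else 0) =
        (μ e : ℂ) * ψ (e : ZMod (primOf χ).1) * ∑ m ∈ Ioc 0 (N / e), ψ m := by
      rw [← sum_filter, mul_sum]
      refine sum_nbij' (fun n => n / e) (fun m => e * m) (fun n hn => ?_) (fun m hm => ?_)
        (fun n hn => ?_) (fun m hm => ?_) (fun n hn => ?_)
      · simp only [mem_filter, mem_Ioc] at hn ⊢
        obtain ⟨m, hm⟩ := hn.2
        exact ⟨Nat.div_pos (Nat.le_of_dvd hn.1.1 hn.2) he0, Nat.div_le_div_right hn.1.2⟩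
      · simp only [mem_filter, mem_Ioc] at hm ⊢
        refine ⟨⟨Nat.mul_pos he0 hm.1, ?_⟩, dvd_mul_right e m⟩
        rw [mul_comm]
        exact (Nat.le_div_iff_mul_le he0).1 hm.2
      · simp only [mem_filter] at hn
        exact Nat.mul_div_cancel' hn.2
      · exact Nat.mul_div_cancel_left m he0
      · simp only [mem_filter] at hn
        rw [mul_assoc, ← map_mul, ← Nat.cast_mul, Nat.mul_div_cancel' hn.2]
    rw [e1]
    by_cases hmem : e ∈ (q / d).divisors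
    · rw [if_pos hmem, norm_mul, norm_mul, hB]
      refine (mul_le_of_le_one_left (norm_nonneg _) (mul_le_one₀ ?_ (norm_nonneg _)
        (ψ.norm_le_one _))).trans ?_
      · rw [Complex.norm_intCast]
        exact_mod_cast ArithmeticFunction.abs_moebius_le_one
      · refine (h hG (primOf χ).1 ψ (hψ ▸ χ.primitiveCharacter_isPrimitive) hd3 (N / e)).trans ?_
        rw [← hd]
        exact mul_le_mul_of_nonneg_left (loglog_mono (hd ▸ hd3)
          (Nat.le_of_dvd (NeZero.pos q) hdq)) (by positivity)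
    · rw [if_neg hmem]
      have hnc : ¬ e.Coprime d := fun hc => hmem (Nat.mem_divisors.2
        ⟨hc.dvd_of_dvd_mul_right (by
          rw [Nat.div_mul_cancel hdq]
          exact Nat.dvd_of_mem_divisors he),
        Nat.div_ne_zero_iff_of_dvd hdq |>.2 ⟨NeZero.ne q, fun e => by omega⟩⟩)
      rw [MulChar.map_nonunit ψ fun hu => hnc (hd ▸ (ZMod.isUnit_iff_coprime e _).1 hu)]
      simp
  refine (norm_sum_le_of_le _ hterm).trans ?_
  rw [← sum_filter, sum_const, nsmul_eq_mul]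
  have hd0 : 0 < d := by omega
  have hqd : q / d ≠ 0 := (Nat.div_pos (Nat.le_of_dvd (NeZero.pos q) hdq) hd0).ne'
  calc ((q.divisors.filter (fun e => e ∈ (q / d).divisors)).card : ℝ) * B
      ≤ 2 * √((q / d : ℕ) : ℝ) * B := by
        refine mul_le_mul_of_nonneg_right (le_trans ?_ (card_divisors_le_sqrt hqd)) hB0
        exact Nat.cast_le.2 (card_le_card fun e he => (mem_filter.1 he).2)
    _ = 2 * C * (√((q / d : ℕ) : ℝ) * √(d : ℝ)) * Real.log (Real.log q) := by rw [hB]; ring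
    _ = _ := by
        rw [← Real.sqrt_mul (Nat.cast_nonneg _), ← Nat.cast_mul, Nat.div_mul_cancel hdq]

end FA.MVCharSum

end
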