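import Fermat.Agent.MVCharSum.Twist
import Fermat.Agent.LOneGRH.Euler
import Fermat.Agent.ThreePrimes.Major
import Mathlib.NumberTheory.DiophantineApproximation.Basic
import Mathlib.NumberTheory.Harmonic.Bounds

/-!
# `∑ χ p e (α p) / p` over an interval of primes, on GRH

`∑_{n ≤ t} Λ n χ n e (α n) = O (t ^ (5/6) log² q)` for `t ≤ q` and every real `α`, by Dirichlet's
approximation with denominator at most `t ^ (2/3)`.
-/

set_option autoImplicit false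

noncomputable section

namespace FA.MVCharSum

open Finset DirichletCharacter
open FA.LOneGRH (primeA wt dwt abel_identity log_pos_of wt_le dwt_le dwt_nonneg wt_nonneg)
open FA.ThreePrimes (eAdd norm_eAdd eAdd_add norm_sum_mul_eAdd_le)
open scoped ArithmeticFunction.vonMangoldt Real

/-- **The exponential sum.** -/
theorem exists_vonMangoldt_exp : ∃ C, 0 ≤ C ∧ (GRHAll → ∀ (q : ℕ) [NeZero q]
    (χ : DirichletCharacter ℂ q), χ.IsPrimitive → ∀ (α : ℝ) (t : ℕ), t ≤ q →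
      ‖∑ n ∈ Ioc 0 t, (Λ n : ℂ) * χ n * eAdd (n * α)‖ ≤
        C * (t : ℝ) ^ (5 / 6 : ℝ) * Real.log q ^ 2) := by
  obtain ⟨C, hC, h⟩ := exists_periodic_sum
  refine ⟨C * (1 + 2 * π), by positivity, fun hG q _ χ hp α t ht => ?_⟩
  rcases Nat.lt_or_ge t 2 with ht2 | ht2
  · rw [sum_eq_zero fun n hn => ?_, norm_zero]
    · positivity
    · obtain rfl : n = 1 := by rw [mem_Ioc] at hn; omega
      simp
  have ht0 : (1 : ℝ) < t := Nat.one_lt_cast.2 (by omega)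
  obtain ⟨R, hR⟩ : ∃ R, R = ⌊(t : ℝ) ^ (2 / 3 : ℝ)⌋₊ := ⟨_, rfl⟩
  have hR1 : 1 ≤ R := hR ▸ Nat.le_floor (by
    push_cast
    exact Real.one_le_rpow ht0.le (by norm_num))
  obtain ⟨x, hx, hden⟩ := Real.exists_rat_abs_sub_le_and_den_le α hR1
  obtain ⟨r, hr⟩ : ∃ r, r = x.den := ⟨_, rfl⟩
  obtain ⟨η, hη⟩ : ∃ η, η = α - (x : ℝ) := ⟨_, rfl⟩
  rw [← hr, ← hη] at hx
  rw [← hr] at hden
  have : NeZero r := ⟨hr ▸ x.den_nz⟩
  have hr23 : (r : ℝ) ≤ (t : ℝ) ^ (2 / 3 : ℝ) := (Nat.cast_le.2 hden).trans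
    (hR ▸ Nat.floor_le (by positivity))
  have hrq : r < q := by
    have h1 : (t : ℝ) ^ (2 / 3 : ℝ) < t := Real.rpow_lt_self_of_one_lt ht0 (by norm_num)
    exact lt_of_lt_of_le (Nat.cast_lt.1 (hr23.trans_lt h1)) ht
  obtain ⟨f, hf⟩ : ∃ f : ZMod r → ℂ, f = fun u => ZMod.stdAddChar ((x.num : ZMod r) * u) :=
    ⟨_, rfl⟩
  have hf1 : ∀ u, ‖f u‖ ≤ 1 := fun u => by
    simp only [hf, ZMod.stdAddChar_apply, Circle.norm_coe, le_refl]
  have hterm : ∀ n : ℕ, eAdd (n * α) = f n * eAdd (n * η) := fun n => by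
    have e1 : f n = eAdd (n * (x : ℝ)) := by
      simp only [hf]
      rw [← Int.cast_natCast (R := ZMod r), ← Int.cast_mul, ZMod.stdAddChar_coe, eAdd]
      congr 1
      rw [hr, Rat.cast_def]
      push_cast
      ring
    rw [e1, ← eAdd_add, hη]
    ring_nf
  simp only [hterm, ← mul_assoc]
  obtain ⟨E, hE⟩ : ∃ E, E = C * √(r : ℝ) * √(t : ℝ) * Real.log q ^ 2 := ⟨_, rfl⟩
  have hbound := norm_sum_mul_eAdd_le (fun n => (Λ n : ℂ) * χ n * f n) η t (E := E)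
    fun j hj => (h hG q χ hp r hrq f hf1 j (hj.trans ht)).trans (by
      rw [hE]
      gcongr)
  refine hbound.trans ?_
  rw [hE]
  have hsr : 1 ≤ √(r : ℝ) := Real.one_le_sqrt.2 (Nat.one_le_cast.2 NeZero.one_le)
  have hr0 : (0 : ℝ) < r := Nat.cast_pos.2 (NeZero.pos r)
  have ht' : (0 : ℝ) < t := by linarith
  obtain ⟨a, ha⟩ : ∃ a : ℝ, a = (t : ℝ) ^ (1 / 3 : ℝ) := ⟨_, rfl⟩
  obtain ⟨b, hb⟩ : ∃ b : ℝ, b = (t : ℝ) ^ (5 / 6 : ℝ) := ⟨_, rfl⟩
  have hb1 : √(t : ℝ) * a = b := by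
    rw [Real.sqrt_eq_rpow, ha, hb, ← Real.rpow_add ht']
    norm_num
  have hsq : √(r : ℝ) ≤ a := by
    rw [Real.sqrt_le_iff, ha]
    refine ⟨by positivity, hr23.trans (le_of_eq ?_)⟩
    rw [← Real.rpow_natCast, ← Real.rpow_mul ht'.le]
    norm_num
  have hbig : (t : ℝ) ≤ a * (R + 1) := by
    have h1 : (t : ℝ) ^ (2 / 3 : ℝ) ≤ R + 1 := hR ▸ (Nat.lt_floor_add_one _).le
    calc (t : ℝ) = a * (t : ℝ) ^ (2 / 3 : ℝ) := by
          rw [ha, ← Real.rpow_add ht']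
          norm_num
      _ ≤ _ := mul_le_mul_of_nonneg_left h1 (by rw [ha]; positivity)
  have h2 : √(r : ℝ) * (|η| * t) ≤ a := by
    calc √(r : ℝ) * (|η| * t) ≤ (r : ℝ) * (|η| * t) := mul_le_mul_of_nonneg_right
          (Real.sqrt_le_iff.2 ⟨hr0.le,
            le_self_pow₀ (Nat.one_le_cast.2 NeZero.one_le) two_ne_zero⟩) (by positivity)
      _ ≤ (r : ℝ) * (1 / (((R : ℝ) + 1) * r) * (a * (R + 1))) := by gcongr
      _ = a := by field_simp
  calc C * √(r : ℝ) * √(t : ℝ) * Real.log q ^ 2 * (1 + 2 * π * |η| * t)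
      = C * √(t : ℝ) * Real.log q ^ 2 * (√(r : ℝ) + 2 * π * (√(r : ℝ) * (|η| * t))) := by ring
    _ ≤ C * √(t : ℝ) * Real.log q ^ 2 * (a + 2 * π * a) := by gcongr
    _ = C * (1 + 2 * π) * (√(t : ℝ) * a) * Real.log q ^ 2 := by ring
    _ = _ := by rw [hb1, hb]

theorem log_nat_ge_one {q : ℕ} (hq : 3 ≤ q) : 1 ≤ Real.log q := by
  rw [Real.le_log_iff_exp_le (Nat.cast_pos.2 (by omega))]
  linarith [Real.exp_one_lt_d9, (Nat.ofNat_le_cast.2 hq : (3 : ℝ) ≤ q)]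

/-- The primes only. -/
theorem exists_prime_exp : ∃ C, 0 ≤ C ∧ (GRHAll → ∀ (q : ℕ) [NeZero q]
    (χ : DirichletCharacter ℂ q), χ.IsPrimitive → 3 ≤ q → ∀ (α : ℝ) (t : ℕ), t ≤ q →
      ‖∑ n ∈ Ioc 0 t, primeA χ n * eAdd (n * α)‖ ≤
        C * (t : ℝ) ^ (5 / 6 : ℝ) * Real.log q ^ 2) := by
  obtain ⟨C, hC, h⟩ := exists_vonMangoldt_exp
  obtain ⟨D, hD⟩ := Chebyshev.psi_sub_theta_le_mul_sqrt
  have hD0 : 0 ≤ D := by
    have := hD 4
    have h4 : (0 : ℝ) < √4 := Real.sqrt_pos.2 (by norm_num)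
    nlinarith [Chebyshev.theta_le_psi 4]
  refine ⟨C + D, by positivity, fun hG q _ χ hp hq α t ht => ?_⟩
  rcases Nat.eq_zero_or_pos t with rfl | ht0
  · simp
  have hdiff : ‖∑ n ∈ Ioc 0 t, (primeA χ n * eAdd (n * α) -
      (Λ n : ℂ) * χ n * eAdd (n * α))‖ ≤ D * √(t : ℝ) := by
    refine le_trans ?_ (hD t)
    rw [Chebyshev.psi_sub_theta_eq_sum_not_prime, Nat.floor_natCast, sum_filter]
    refine norm_sum_le_of_le _ fun j _ => ?_
    rw [← sub_mul, norm_mul, norm_eAdd, mul_one]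
    by_cases hjp : j.Prime
    · simp [primeA, hjp, ArithmeticFunction.vonMangoldt_apply_prime hjp, mul_comm]
    · rw [if_pos hjp, primeA, if_neg hjp, zero_sub, norm_neg, norm_mul, Complex.norm_real,
        Real.norm_of_nonneg ArithmeticFunction.vonMangoldt_nonneg]
      exact mul_le_of_le_one_right ArithmeticFunction.vonMangoldt_nonneg (χ.norm_le_one _)
  rw [sum_sub_distrib] at hdiff
  have h1 : D * √(t : ℝ) ≤ D * (t : ℝ) ^ (5 / 6 : ℝ) * Real.log q ^ 2 := by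
    have hl : 1 ≤ Real.log q ^ 2 := one_le_pow₀ (log_nat_ge_one hq)
    have hs : √(t : ℝ) ≤ (t : ℝ) ^ (5 / 6 : ℝ) := by
      rw [Real.sqrt_eq_rpow]
      exact Real.rpow_le_rpow_of_exponent_le (Nat.one_le_cast.2 ht0) (by norm_num)
    calc D * √(t : ℝ) ≤ D * (t : ℝ) ^ (5 / 6 : ℝ) * 1 := by
          rw [mul_one]
          exact mul_le_mul_of_nonneg_left hs hD0
      _ ≤ _ := mul_le_mul_of_nonneg_left hl (by positivity)
  have h2 := h hG q χ hp α t ht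
  have h3 := norm_add_le (∑ n ∈ Ioc 0 t, (Λ n : ℂ) * χ n * eAdd (n * α))
    (∑ n ∈ Ioc 0 t, primeA χ n * eAdd (n * α) - ∑ n ∈ Ioc 0 t, (Λ n : ℂ) * χ n * eAdd (n * α))
  rw [add_sub_cancel] at h3
  linarith

/-- **A range of primes beyond `Y`.** -/
theorem exists_prime_range : ∃ C, 0 ≤ C ∧ (GRHAll → ∀ (q : ℕ) [NeZero q]
    (χ : DirichletCharacter ℂ q), χ.IsPrimitive → 3 ≤ q → ∀ (α : ℝ) (Y a b : ℕ),
      2 ≤ Y → Y ≤ a → b ≤ q →
      ‖∑ p ∈ (Ioc a b).filter Nat.Prime, χ p * eAdd (p * α) / p‖ ≤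
        C * Real.log q ^ 3 / (Y : ℝ) ^ (1 / 6 : ℝ)) := by
  obtain ⟨C, hC, h⟩ := exists_prime_exp
  refine ⟨20 * C, by positivity, fun hG q _ χ hp hq α Y a b hY hYa hbq => ?_⟩
  rcases Nat.lt_or_ge b a with hba | hab
  · rw [Ioc_eq_empty_of_le hba.le]
    simp only [filter_empty, sum_empty, norm_zero]
    positivity
  obtain ⟨w, hw⟩ : ∃ w : ℕ → ℂ, w = fun n : ℕ => primeA χ n * eAdd (n * α) := ⟨_, rfl⟩
  have e : ∑ p ∈ (Ioc a b).filter Nat.Prime, χ p * eAdd (p * α) / p =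
      ∑ n ∈ Ioc a b, w n * (wt 1 n : ℂ) := by
    rw [sum_filter]
    refine sum_congr rfl fun n hn => ?_
    have hn2 : 2 ≤ n := by rw [mem_Ioc] at hn; omega
    have hl : (Real.log n : ℂ) ≠ 0 := Complex.ofReal_ne_zero.2 (log_pos_of hn2).ne'
    rw [hw, wt, Real.rpow_neg_one]
    by_cases hnp : n.Prime
    · simp only [primeA, if_pos hnp]
      rw [Complex.ofReal_div, Complex.ofReal_inv, Complex.ofReal_natCast]
      field_simp
    · simp [primeA, hnp]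
  obtain ⟨K, hK⟩ : ∃ K, K = C * Real.log q ^ 2 / (Y : ℝ) ^ (1 / 6 : ℝ) := ⟨_, rfl⟩
  have hY0 : (0 : ℝ) < Y := Nat.cast_pos.2 (by omega)
  have hK0 : 0 ≤ K := hK ▸ by positivity
  have hA : ∀ n, a ≤ n → n ≤ b → ‖∑ k ∈ Ioc 0 n, w k‖ ≤ K * n := fun n hn hnb => by
    rw [hw]
    refine (h hG q χ hp hq α n (hnb.trans hbq)).trans ?_
    rw [hK, div_mul_eq_mul_div, le_div_iff₀ (by positivity)]
    have hYn : (Y : ℝ) ≤ n := Nat.cast_le.2 (hYa.trans hn)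
    calc C * (n : ℝ) ^ (5 / 6 : ℝ) * Real.log q ^ 2 * (Y : ℝ) ^ (1 / 6 : ℝ)
        ≤ C * (n : ℝ) ^ (5 / 6 : ℝ) * Real.log q ^ 2 * (n : ℝ) ^ (1 / 6 : ℝ) := by gcongr
      _ = C * Real.log q ^ 2 * ((n : ℝ) ^ (5 / 6 : ℝ) * (n : ℝ) ^ (1 / 6 : ℝ)) := by ring
      _ = _ := by
          rw [← Real.rpow_add (hY0.trans_le hYn)]
          norm_num
  have hl2 : 1 / 2 ≤ Real.log a := LOneGRH.log_ge_half (hY.trans hYa)
  have hedge : ∀ n, a ≤ n → n ≤ b →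
      ‖(∑ k ∈ Ioc 0 n, w k) * (wt 1 (n + 1) : ℂ)‖ ≤ 2 * K := fun n hn hnb => by
    rw [norm_mul, Complex.norm_real, Real.norm_of_nonneg (wt_nonneg _)]
    refine (mul_le_mul (hA n hn hnb) (wt_le le_rfl (by omega)) (wt_nonneg _) 
      (by positivity)).trans ?_
    have hl : 1 / 2 ≤ Real.log (n + 1 : ℕ) := LOneGRH.log_ge_half (by omega)
    rw [mul_one_div, div_le_iff₀ (by positivity)]
    calc K * n ≤ K * ((n + 1 : ℕ) * (2 * Real.log (n + 1 : ℕ))) := by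
          refine mul_le_mul_of_nonneg_left ?_ hK0
          exact (Nat.cast_le.2 (Nat.le_succ n)).trans
            (le_mul_of_one_le_right (by positivity) (by linarith))
      _ = _ := by ring
  have hL1 := log_nat_ge_one hq
  have hinner : ‖∑ n ∈ Ioc a b, (∑ k ∈ Ioc 0 n, w k) *
      ((wt 1 n - wt 1 (n + 1) : ℝ) : ℂ)‖ ≤ 8 * K * (1 + Real.log q) := by
    refine (norm_sum_le_of_le (n := fun n : ℕ => 8 * K * (n : ℝ)⁻¹) _ fun n hn => ?_).trans ?_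
    · have hn' := mem_Ioc.1 hn
      have hn2 : 2 ≤ n := by omega
      rw [norm_mul, Complex.norm_real, ← dwt, Real.norm_of_nonneg (dwt_nonneg le_rfl hn2)]
      refine (mul_le_mul (hA n hn'.1.le hn'.2) (dwt_le le_rfl one_le_two hn2)
        (dwt_nonneg le_rfl hn2) (by positivity)).trans ?_
      have hl : 1 / 2 ≤ Real.log n := LOneGRH.log_ge_half hn2
      have hn0 : (0 : ℝ) < n := Nat.cast_pos.2 (by omega)
      calc K * n * (4 / ((n : ℝ) ^ 2 * Real.log n)) = 4 * K / Real.log n * (n : ℝ)⁻¹ := by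
            field_simp
        _ ≤ _ := by
            refine mul_le_mul_of_nonneg_right ?_ (by positivity)
            rw [div_le_iff₀ (by linarith)]
            nlinarith
    · rw [← mul_sum]
      refine mul_le_mul_of_nonneg_left ?_ (by positivity)
      refine (sum_le_sum_of_subset_of_nonneg (t := Icc 1 b)
        (f := fun n : ℕ => (n : ℝ)⁻¹) (fun n hn => ?_) fun n _ _ => by positivity).trans ?_
      · rw [mem_Ioc] at hn
        exact mem_Icc.2 ⟨by omega, hn.2⟩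
      · have h1 := harmonic_le_one_add_log b
        rw [harmonic_eq_sum_Icc] at h1
        push_cast at h1
        have h2 : Real.log b ≤ Real.log q :=
          Real.log_le_log (Nat.cast_pos.2 (by omega)) (Nat.cast_le.2 hbq)
        linarith
  rw [e, abel_identity w (wt 1) b hab]
  calc ‖(∑ k ∈ Ioc 0 b, w k) * (wt 1 (b + 1) : ℂ) - (∑ k ∈ Ioc 0 a, w k) * (wt 1 (a + 1) : ℂ) +
        ∑ n ∈ Ioc a b, (∑ k ∈ Ioc 0 n, w k) * ((wt 1 n - wt 1 (n + 1) : ℝ) : ℂ)‖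
      ≤ 2 * K + 2 * K + 8 * K * (1 + Real.log q) := (norm_add_le _ _).trans (add_le_add
        ((norm_sub_le _ _).trans (add_le_add (hedge b hab le_rfl) (hedge a le_rfl hab))) hinner)
    _ ≤ 20 * K * Real.log q := by nlinarith
    _ = _ := by rw [hK]; ring

end FA.MVCharSum

end
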