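import Fermat.Agent.MVCharSum.Primes
import Fermat.Agent.LOneGRH.Bounds
import Fermat.Agent.ClassNumberExtremes.Smooth

/-!
# `∑_{n ≤ H} χ n e (α n) / n = O (log log q)` on GRH

The `n` with all prime factors `≤ Y = (log q) ^ 24` give `O (log Y)`; the others are `m p` with `p`
the largest prime factor, and the sums over `p` are `O (log³ q / Y ^ (1/6))`.
-/

set_option autoImplicit false

noncomputable section

namespace FA.MVCharSum

open Finset DirichletCharacter
open FA.ThreePrimes (eAdd norm_eAdd)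
open FA.ClassNumberExtremes (SmoothUp mertProd sum_inv_smooth_le)
open scoped Classical

/-- The largest prime factor. -/
def topFac (n : ℕ) : ℕ := n.primeFactors.sup id

theorem le_topFac {n p : ℕ} (hp : p.Prime) (hd : p ∣ n) (hn : n ≠ 0) : p ≤ topFac n :=
  Finset.le_sup (f := id) (Nat.mem_primeFactors.2 ⟨hp, hd, hn⟩)

theorem topFac_spec {n : ℕ} (h : 0 < topFac n) : (topFac n).Prime ∧ topFac n ∣ n := by
  have hne : n.primeFactors.Nonempty := by
    by_contra he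
    rw [not_nonempty_iff_eq_empty] at he
    rw [topFac, he, sup_empty] at h
    exact lt_irrefl _ h
  obtain ⟨p, hp, e⟩ := exists_mem_eq_sup _ hne id
  rw [topFac, e]
  exact ⟨Nat.prime_of_mem_primeFactors hp, Nat.dvd_of_mem_primeFactors hp⟩

theorem topFac_mul {m p : ℕ} (hp : p.Prime) (hm : m ≠ 0) (h : topFac m ≤ p) :
    topFac (m * p) = p := by
  refine le_antisymm (Finset.sup_le fun r hr => ?_)
    (le_topFac hp (dvd_mul_left p m) (mul_ne_zero hm hp.ne_zero))
  obtain ⟨hrp, hrd, -⟩ := Nat.mem_primeFactors.1 hr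
  rcases hrp.dvd_mul.1 hrd with h1 | h1
  · exact (le_topFac hrp h1 hm).trans h
  · exact Nat.le_of_dvd hp.pos h1

theorem exists_mertProd_le : ∃ C, 0 ≤ C ∧ ∀ Y : ℕ, 2 ≤ Y → (mertProd Y)⁻¹ ≤ C * Real.log Y := by
  obtain ⟨C, hC⟩ := LOneGRH.tendsto_upProd.bddAbove_range
  refine ⟨max C 0, le_max_right _ _, fun Y hY => ?_⟩
  have hl := LOneGRH.log_pos_of hY
  have e : (mertProd Y)⁻¹ = LOneGRH.upProd Y := by
    rw [mertProd, LOneGRH.upProd, ← prod_inv_distrib]
    refine prod_congr ?_ fun p _ => rfl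
    ext p
    simp only [mem_filter, mem_range, mem_Icc]
    exact ⟨fun h => ⟨⟨h.2.one_le, by omega⟩, h.2⟩, fun h => ⟨by omega, h.2⟩⟩
  rw [e, ← div_le_iff₀ hl]
  exact (hC ⟨Y, rfl⟩).trans (le_max_left _ _)

theorem sum_good_le {q : ℕ} (χ : DirichletCharacter ℂ q) (α : ℝ) (H Y : ℕ) :
    ‖∑ n ∈ (Ioc 0 H).filter (fun n => ¬Y < topFac n), χ n * eAdd (n * α) / n‖ ≤
      (mertProd Y)⁻¹ := by
  refine le_trans ?_ (sum_inv_smooth_le Y H)
  rw [← sum_filter]
  refine (norm_sum_le_of_le (n := fun n : ℕ => (n : ℝ)⁻¹) _ fun n _ => ?_).trans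
    (sum_le_sum_of_subset_of_nonneg (fun n hn => ?_) fun n _ _ => by positivity)
  · rw [norm_div, norm_mul, norm_eAdd, mul_one, Complex.norm_natCast, inv_eq_one_div]
    exact div_le_div_of_nonneg_right (χ.norm_le_one _) (Nat.cast_nonneg n)
  · obtain ⟨hn1, hn2⟩ := mem_filter.1 hn
    rw [mem_Ioc] at hn1
    exact mem_filter.2 ⟨mem_Icc.2 ⟨hn1.1, hn1.2⟩,
      fun p hp hd => (le_topFac hp hd (by omega)).trans (not_lt.1 hn2)⟩

theorem sum_bad_eq {q : ℕ} (χ : DirichletCharacter ℂ q) (α : ℝ) (H Y : ℕ) :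
    ∑ n ∈ (Ioc 0 H).filter (fun n => Y < topFac n), χ n * eAdd (n * α) / n =
      ∑ m ∈ Icc 1 H, χ m / m *
        ∑ p ∈ (Ioc (max Y (topFac m - 1)) (H / m)).filter Nat.Prime,
          χ p * eAdd (p * (m * α)) / p := by
  simp only [mul_sum]
  rw [sum_sigma']
  refine sum_nbij' (fun n => ⟨n / topFac n, topFac n⟩) (fun x => x.1 * x.2) ?_ ?_ ?_ ?_ ?_
  · intro n hn
    obtain ⟨hn1, hn2⟩ := mem_filter.1 hn
    rw [mem_Ioc] at hn1
    obtain ⟨hp, hd⟩ := topFac_spec (show 0 < topFac n by omega)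
    obtain ⟨m, hm⟩ := hd
    have hdiv : n / topFac n = m := Nat.div_eq_of_eq_mul_right hp.pos hm
    have hm0 : m ≠ 0 := fun e => by rw [e, mul_zero] at hm; omega
    have hmn : m ∣ n := ⟨topFac n, by rw [mul_comm]; exact hm⟩
    have htop : topFac m ≤ topFac n := Finset.sup_le fun r hr => by
      obtain ⟨hrp, hrd, -⟩ := Nat.mem_primeFactors.1 hr
      exact le_topFac hrp (hrd.trans hmn) (by omega)
    have hle : topFac n ≤ H / m := (Nat.le_div_iff_mul_le (Nat.pos_of_ne_zero hm0)).2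
      (hm ▸ hn1.2)
    have hmH : m ≤ H := (Nat.le_of_dvd (by omega) hmn).trans hn1.2
    simp only [mem_sigma, mem_filter, mem_Icc, mem_Ioc, hdiv, max_lt_iff]
    exact ⟨⟨Nat.pos_of_ne_zero hm0, hmH⟩, ⟨⟨hn2, by have := hp.pos; omega⟩, hle⟩, hp⟩
  · rintro ⟨m, p⟩ hx
    simp only [mem_sigma, mem_filter, mem_Icc, mem_Ioc, max_lt_iff] at hx
    obtain ⟨⟨hm1, -⟩, ⟨⟨hYp, htop⟩, hle⟩, hp⟩ := hx
    have e := topFac_mul hp (by omega : m ≠ 0) (by omega)
    refine mem_filter.2 ⟨mem_Ioc.2 ⟨Nat.mul_pos hm1 hp.pos, ?_⟩, by rw [e]; exact hYp⟩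
    rw [mul_comm]
    exact (Nat.le_div_iff_mul_le hm1).1 hle
  · intro n hn
    obtain ⟨-, hn2⟩ := mem_filter.1 hn
    exact Nat.div_mul_cancel (topFac_spec (show 0 < topFac n by omega)).2
  · rintro ⟨m, p⟩ hx
    simp only [mem_sigma, mem_filter, mem_Icc, mem_Ioc, max_lt_iff] at hx
    obtain ⟨⟨hm1, -⟩, ⟨⟨-, htop⟩, -⟩, hp⟩ := hx
    have e := topFac_mul hp (by omega : m ≠ 0) (by omega)
    simp only [e, Nat.mul_div_cancel _ hp.pos]
  · intro n hn
    obtain ⟨-, hn2⟩ := mem_filter.1 hn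
    obtain ⟨hp, hd⟩ := topFac_spec (show 0 < topFac n by omega)
    obtain ⟨m, hm⟩ := hd
    have hdiv : n / topFac n = m := Nat.div_eq_of_eq_mul_right hp.pos hm
    simp only [hdiv]
    conv_lhs => rw [hm]
    push_cast
    rw [map_mul, show (topFac n : ℝ) * m * α = topFac n * (m * α) by ring]
    ring

/-- **The key bound.** -/
theorem exists_twisted_harmonic : ∃ C, 0 ≤ C ∧ (GRHAll → ∀ (q : ℕ) [NeZero q]
    (χ : DirichletCharacter ℂ q), χ.IsPrimitive → 3 ≤ q → ∀ (α : ℝ) (H : ℕ), H ≤ q →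
      ‖∑ n ∈ Ioc 0 H, χ n * eAdd (n * α) / n‖ ≤ C * Real.log (Real.log q)) := by
  obtain ⟨C, hC, h⟩ := exists_prime_range
  obtain ⟨D, hD, hmert⟩ := exists_mertProd_le
  obtain ⟨c, hc⟩ : ∃ c, c = Real.log (Real.log 3) := ⟨_, rfl⟩
  have hc0 : 0 < c := by
    rw [hc]
    refine Real.log_pos ?_
    rw [Real.lt_log_iff_exp_lt three_pos]
    linarith [Real.exp_one_lt_d9]
  refine ⟨D * (24 + Real.log 2 / c) + 2 * C / c, by positivity, fun hG q _ χ hp hq α H hH => ?_⟩
  obtain ⟨L, hL⟩ : ∃ L, L = Real.log q := ⟨_, rfl⟩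
  have hL1 : 1 ≤ L := hL ▸ log_nat_ge_one hq
  have hlL : c ≤ Real.log L := by
    rw [hc, hL]
    exact Real.log_le_log (Real.log_pos (by norm_num))
      (Real.log_le_log three_pos (Nat.ofNat_le_cast.2 hq))
  obtain ⟨Y, hY⟩ : ∃ Y, Y = ⌈L ^ 24⌉₊ := ⟨_, rfl⟩
  have hL124 : 1 < L ^ 24 := by
    refine one_lt_pow₀ ?_ (by norm_num)
    by_contra hle
    rw [show L = 1 by linarith, Real.log_one] at hlL
    linarith
  have hY2 : 2 ≤ Y := hY ▸ Nat.lt_ceil.2 (by exact_mod_cast hL124)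
  have hYL : L ^ 4 ≤ (Y : ℝ) ^ (1 / 6 : ℝ) := by
    calc L ^ 4 = (L ^ 24) ^ (1 / 6 : ℝ) := by
          rw [← Real.rpow_natCast, ← Real.rpow_natCast, ← Real.rpow_mul (by linarith)]
          norm_num
      _ ≤ _ := Real.rpow_le_rpow (by positivity) (hY ▸ Nat.le_ceil _) (by norm_num)
  have hgood : (mertProd Y)⁻¹ ≤ D * (24 + Real.log 2 / c) * Real.log L := by
    refine (hmert Y hY2).trans ?_
    rw [mul_assoc]
    refine mul_le_mul_of_nonneg_left ?_ hD
    have hY1 : (Y : ℝ) ≤ 2 * L ^ 24 := by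
      rw [hY]
      linarith [Nat.ceil_lt_add_one (show (0 : ℝ) ≤ L ^ 24 by positivity)]
    refine (Real.log_le_log (Nat.cast_pos.2 (by omega)) hY1).trans ?_
    rw [Real.log_mul two_ne_zero (by positivity), Real.log_pow, add_mul]
    have : Real.log 2 ≤ Real.log 2 / c * Real.log L := by
      rw [div_mul_eq_mul_div, le_div_iff₀ hc0]
      exact mul_le_mul_of_nonneg_left hlL (Real.log_nonneg one_le_two)
    push_cast
    linarith
  have hbad : ‖∑ n ∈ (Ioc 0 H).filter (fun n => Y < topFac n), χ n * eAdd (n * α) / n‖ ≤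
      2 * C := by
    rw [sum_bad_eq]
    refine (norm_sum_le_of_le (n := fun m : ℕ => (m : ℝ)⁻¹ * (C / L)) _ fun m hm => ?_).trans ?_
    · rw [norm_mul]
      refine mul_le_mul ?_ ?_ (norm_nonneg _) (by positivity)
      · rw [norm_div, Complex.norm_natCast, inv_eq_one_div]
        exact div_le_div_of_nonneg_right (χ.norm_le_one _) (Nat.cast_nonneg m)
      · refine (h hG q χ hp hq (m * α) Y _ _ hY2 (le_max_left _ _)
          ((Nat.div_le_self H m).trans hH)).trans ?_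
        rw [← hL]
        calc C * L ^ 3 / (Y : ℝ) ^ (1 / 6 : ℝ) ≤ C * L ^ 3 / L ^ 4 :=
              div_le_div_of_nonneg_left (by positivity) (by positivity) hYL
          _ = _ := by field_simp
    · rw [← sum_mul]
      have h1 : ∑ m ∈ Icc 1 H, (m : ℝ)⁻¹ ≤ 2 * L := by
        refine (sum_le_sum_of_subset_of_nonneg (t := Icc 1 q) (Icc_subset_Icc_right hH)
          fun m _ _ => by positivity).trans ?_
        have h2 := harmonic_le_one_add_log q
        rw [harmonic_eq_sum_Icc] at h2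
        push_cast at h2
        rw [← hL] at h2
        linarith
      calc (∑ m ∈ Icc 1 H, (m : ℝ)⁻¹) * (C / L) ≤ 2 * L * (C / L) :=
            mul_le_mul_of_nonneg_right h1 (by positivity)
        _ = _ := by field_simp
  have h2C : 2 * C ≤ 2 * C / c * Real.log L := by
    rw [div_mul_eq_mul_div, le_div_iff₀ hc0]
    exact mul_le_mul_of_nonneg_left hlL (by positivity)
  rw [← sum_filter_add_sum_filter_not (Ioc 0 H) (fun n => Y < topFac n), ← hL]
  refine (norm_add_le _ _).trans ((add_le_add hbad ((sum_good_le χ α H Y).trans hgood)).trans ?_)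
  linarith

end FA.MVCharSum

end
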