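import Fermat.Agent.GRHProgressions.Classes
import Mathlib.NumberTheory.DirichletCharacter.Orthogonality
import Mathlib.RingTheory.RootsOfUnity.AlgebraicallyClosed
import Mathlib.Analysis.Complex.Polynomial.Basic

/-!
# `∑ Λ n χ n f n` for a function `f` periodic mod `r < q`, on GRH

Expand `f` in the characters `ψ` mod `r`; every `χ ψ` is nontrivial mod `q r` as `χ` is primitive.
-/

set_option autoImplicit false

noncomputable section

namespace FA.MVCharSum

open Finset DirichletCharacter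
open FA.GRHProgressions (GRHMod card_primeFactors_le sum_not_coprime exists_psiChar_nontrivial)
open FA.Gallagher (psiChar twist)
open scoped ArithmeticFunction.vonMangoldt Classical

/-- GRH for all the Dirichlet `L`-functions. -/
abbrev GRHAll : Prop := ∀ (n : ℕ) [NeZero n], GRHMod n

variable {q r : ℕ} [NeZero q] [NeZero r]

/-- `χ ψ` mod `q r`. -/
def mulLevel (χ : DirichletCharacter ℂ q) (ψ : DirichletCharacter ℂ r) :
    DirichletCharacter ℂ (q * r) :=
  changeLevel (dvd_mul_right q r) χ * changeLevel (dvd_mul_left r q) ψ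

omit [NeZero q] [NeZero r] in
theorem mulLevel_apply (χ : DirichletCharacter ℂ q) (ψ : DirichletCharacter ℂ r) (n : ℕ) :
    mulLevel χ ψ (n : ZMod (q * r)) = χ n * ψ n := by
  by_cases h : n.Coprime (q * r)
  · have hi : IsCoprime (n : ℤ) ((q * r : ℕ) : ℤ) := Nat.isCoprime_iff_coprime.2 h
    have h1 := changeLevel_eq_cast_of_dvd' χ (dvd_mul_right q r) hi
    have h2 := changeLevel_eq_cast_of_dvd' ψ (dvd_mul_left r q) hi
    rw [Int.cast_natCast, Int.cast_natCast] at h1 h2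
    rw [mulLevel, MulChar.mul_apply, h1, h2]
  · rw [MulChar.map_nonunit _ fun hu => h ((ZMod.isUnit_iff_coprime n _).1 hu)]
    rcases not_and_or.1 fun hh => h (Nat.coprime_mul_iff_right.2 hh) with h1 | h1
    · rw [MulChar.map_nonunit χ fun hu => h1 ((ZMod.isUnit_iff_coprime n _).1 hu), zero_mul]
    · rw [MulChar.map_nonunit ψ fun hu => h1 ((ZMod.isUnit_iff_coprime n _).1 hu), mul_zero]

theorem mulLevel_ne_one {χ : DirichletCharacter ℂ q} (hp : χ.IsPrimitive)
    (ψ : DirichletCharacter ℂ r) (hr : r < q) : mulLevel χ ψ ≠ 1 := fun e => by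
  have h := eq_inv_of_mul_eq_one_left e
  have h1 := congrArg DirichletCharacter.conductor h
  rw [conductor_changeLevel, conductor_inv, conductor_changeLevel, (isPrimitive_def χ).1 hp] at h1
  exact absurd (Nat.le_of_dvd (NeZero.pos r) ψ.conductor_dvd_level) (by omega)

/-- The coefficients of `f`. -/
def charCoeff (f : ZMod r → ℂ) (ψ : DirichletCharacter ℂ r) : ℂ :=
  ∑ u ∈ univ.filter (fun u : ZMod r => IsUnit u), f u * ψ u⁻¹

theorem sum_charCoeff_mul (f : ZMod r → ℂ) (a : ZMod r) :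
    ∑ ψ : DirichletCharacter ℂ r, charCoeff f ψ * ψ a =
      if IsUnit a then (r.totient : ℂ) * f a else 0 := by
  simp only [charCoeff, sum_mul]
  rw [sum_comm]
  calc ∑ u ∈ univ.filter (fun u : ZMod r => IsUnit u),
        ∑ ψ : DirichletCharacter ℂ r, f u * ψ u⁻¹ * ψ a
      = ∑ u ∈ univ.filter (fun u : ZMod r => IsUnit u),
          if u = a then (r.totient : ℂ) * f u else 0 := by
        refine sum_congr rfl fun u hu => ?_
        simp only [mul_assoc]
        rw [← mul_sum, sum_char_inv_mul_char_eq ℂ (mem_filter.1 hu).2]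
        split_ifs <;> ring
    _ = _ := by rw [sum_ite_eq']; simp

theorem sum_norm_sq_charCoeff {f : ZMod r → ℂ} (hf : ∀ u, ‖f u‖ ≤ 1) :
    ∑ ψ : DirichletCharacter ℂ r, ‖charCoeff f ψ‖ ^ 2 ≤ (r.totient : ℝ) ^ 2 := by
  obtain ⟨U, hU⟩ : ∃ U, U = univ.filter (fun u : ZMod r => IsUnit u) := ⟨_, rfl⟩
  have hcard : (U.card : ℝ) = r.totient := by
    rw [hU, ← ZMod.card_units_eq_totient r, Fintype.card]
    congr 1
    symm
    refine card_bij (fun (u : (ZMod r)ˣ) _ => (u : ZMod r)) (fun u _ => ?_)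
      (fun u _ v _ h => Units.ext h) fun b hb => ?_
    · simp
    · exact ⟨(mem_filter.1 hb).2.unit, mem_univ _, IsUnit.unit_spec _⟩
  have hconj : ∀ ψ : DirichletCharacter ℂ r, starRingEnd ℂ (charCoeff f ψ) =
      ∑ v ∈ U, starRingEnd ℂ (f v) * ψ v := fun ψ => by
    rw [charCoeff, map_sum, hU]
    refine sum_congr rfl fun v hv => ?_
    obtain ⟨v, rfl⟩ := (mem_filter.1 hv).2
    rw [map_mul, ZMod.inv_coe_unit, starRingEnd_apply (R := ℂ) (ψ _), MulChar.star_apply',
      MulChar.inv_apply, Ring.inverse_unit, inv_inv]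
  have e : ((∑ ψ : DirichletCharacter ℂ r, ‖charCoeff f ψ‖ ^ 2 : ℝ) : ℂ) =
      (r.totient : ℂ) * ∑ v ∈ U, ((‖f v‖ ^ 2 : ℝ) : ℂ) := by
    push_cast
    calc ∑ ψ : DirichletCharacter ℂ r, (‖charCoeff f ψ‖ : ℂ) ^ 2
        = ∑ ψ : DirichletCharacter ℂ r, starRingEnd ℂ (charCoeff f ψ) * charCoeff f ψ :=
          sum_congr rfl fun ψ _ => (Complex.conj_mul' _).symm
      _ = ∑ v ∈ U, starRingEnd ℂ (f v) * ∑ ψ : DirichletCharacter ℂ r, charCoeff f ψ * ψ v := by
          simp only [hconj, sum_mul, mul_sum]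
          rw [sum_comm]
          exact sum_congr rfl fun v _ => sum_congr rfl fun ψ _ => by ring
      _ = _ := by
          rw [mul_sum]
          refine sum_congr rfl fun v hv => ?_
          rw [sum_charCoeff_mul, if_pos (by rw [hU] at hv; exact (mem_filter.1 hv).2),
            ← Complex.conj_mul']
          ring
  have h1 : ∑ ψ : DirichletCharacter ℂ r, ‖charCoeff f ψ‖ ^ 2 =
      (r.totient : ℝ) * ∑ v ∈ U, ‖f v‖ ^ 2 := by exact_mod_cast e
  rw [h1, sq, ← hcard]
  refine mul_le_mul_of_nonneg_left ((sum_le_sum fun v _ => pow_le_one₀ (norm_nonneg _) (hf v)).trans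
    ?_) (Nat.cast_nonneg _)
  simp

theorem sum_norm_charCoeff_le {f : ZMod r → ℂ} (hf : ∀ u, ‖f u‖ ≤ 1) :
    ∑ ψ : DirichletCharacter ℂ r, ‖charCoeff f ψ‖ ≤ r.totient * √(r : ℝ) := by
  have hcard : ((univ : Finset (DirichletCharacter ℂ r)).card : ℝ) = r.totient := by
    rw [card_univ, ← Nat.card_eq_fintype_card,
      DirichletCharacter.card_eq_totient_of_hasEnoughRootsOfUnity]
  have h1 := sq_sum_le_card_mul_sum_sq (s := (univ : Finset (DirichletCharacter ℂ r)))
    (f := fun ψ => ‖charCoeff f ψ‖)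
  rw [hcard] at h1
  have h2 : (∑ ψ : DirichletCharacter ℂ r, ‖charCoeff f ψ‖) ^ 2 ≤
      (r.totient * √(r : ℝ)) ^ 2 := by
    rw [mul_pow, Real.sq_sqrt (Nat.cast_nonneg r)]
    refine h1.trans ((mul_le_mul_of_nonneg_left (sum_norm_sq_charCoeff hf)
      (Nat.cast_nonneg _)).trans ?_)
    rw [mul_comm ((r.totient : ℝ) ^ 2)]
    exact mul_le_mul_of_nonneg_right (Nat.cast_le.2 r.totient_le) (sq_nonneg _)
  exact (pow_le_pow_iff_left₀ (sum_nonneg fun ψ _ => norm_nonneg _) (by positivity)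
    two_ne_zero).1 h2

/-- **The twisted sum over a short period.** -/
theorem exists_periodic_sum : ∃ C, 0 ≤ C ∧ (GRHAll → ∀ (q : ℕ) [NeZero q]
    (χ : DirichletCharacter ℂ q), χ.IsPrimitive → ∀ (r : ℕ) [NeZero r], r < q →
      ∀ f : ZMod r → ℂ, (∀ u, ‖f u‖ ≤ 1) → ∀ t : ℕ, t ≤ q →
        ‖∑ n ∈ Ioc 0 t, (Λ n : ℂ) * χ n * f n‖ ≤ C * √(r : ℝ) * √(t : ℝ) * Real.log q ^ 2) := by
  obtain ⟨C, hC, h⟩ := exists_psiChar_nontrivial
  refine ⟨9 * C + 2, by positivity, fun hG q _ χ hp r _ hr f hf t ht => ?_⟩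
  rcases Nat.lt_or_ge t 2 with ht2 | ht2
  · rw [sum_eq_zero fun n hn => ?_, norm_zero]
    · positivity
    · obtain rfl : n = 1 := by rw [mem_Ioc] at hn; omega
      simp
  have hr0 : (0 : ℝ) < r := Nat.cast_pos.2 (NeZero.pos r)
  have hr1 : (1 : ℝ) ≤ √(r : ℝ) := Real.one_le_sqrt.2 (Nat.one_le_cast.2 NeZero.one_le)
  have ht1 : (1 : ℝ) ≤ √(t : ℝ) := Real.one_le_sqrt.2 (Nat.one_le_cast.2 (by omega))
  have htq : (t : ℝ) ≤ q := Nat.cast_le.2 ht
  have hrq : (r : ℝ) ≤ q := Nat.cast_le.2 hr.le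
  have hicc : Ioc 0 t = Icc 1 t := by ext n; simp; omega
  have hlq : 0 ≤ Real.log q := Real.log_natCast_nonneg q
  have hpsi : ∀ ψ : DirichletCharacter ℂ r,
      ‖∑ n ∈ Ioc 0 t, (Λ n : ℂ) * χ n * ψ n‖ ≤ C * √(t : ℝ) * (9 * Real.log q ^ 2) := fun ψ => by
    have : NeZero (q * r) := ⟨mul_ne_zero (NeZero.ne q) (NeZero.ne r)⟩
    have h1 := h (q * r) (mulLevel χ ψ) (mulLevel_ne_one hp ψ hr) (hG (q * r) _) t
      (by exact_mod_cast ht2)
    have e : psiChar (mulLevel χ ψ) (t : ℝ) = ∑ n ∈ Ioc 0 t, (Λ n : ℂ) * χ n * ψ n := by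
      rw [psiChar, Nat.floor_natCast, hicc]
      refine sum_congr rfl fun n _ => ?_
      rw [twist, mulLevel_apply]
      ring
    rw [e] at h1
    refine h1.trans (mul_le_mul_of_nonneg_left ?_ (by positivity))
    rw [show (9 : ℝ) * Real.log q ^ 2 = (3 * Real.log q) ^ 2 by ring]
    have hq0 : (0 : ℝ) < q := Nat.cast_pos.2 (NeZero.pos q)
    have ht0 : (1 : ℝ) ≤ t := Nat.one_le_cast.2 (by omega)
    refine pow_le_pow_left₀ (Real.log_nonneg ?_) ?_ 2
    · push_cast
      exact one_le_mul_of_one_le_of_one_le (one_le_mul_of_one_le_of_one_le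
        (Nat.one_le_cast.2 NeZero.one_le) (Nat.one_le_cast.2 NeZero.one_le)) ht0
    · push_cast
      rw [show (3 : ℝ) * Real.log q = Real.log ((q : ℝ) ^ 3) by rw [Real.log_pow]; norm_num]
      refine Real.log_le_log (by positivity) ?_
      calc (q : ℝ) * r * t ≤ q * q * q := by gcongr
        _ = _ := by ring
  have hbad : ‖∑ n ∈ (Ioc 0 t).filter (fun n : ℕ => ¬IsUnit (n : ZMod r)),
      (Λ n : ℂ) * χ n * f n‖ ≤ 2 * Real.log q ^ 2 := by
    have hterm : ∀ n ∈ (Ioc 0 t).filter (fun n : ℕ => ¬IsUnit (n : ZMod r)),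
        ‖(Λ n : ℂ) * χ n * f n‖ ≤ Λ n := fun n _ => by
      rw [norm_mul, norm_mul, Complex.norm_real,
        Real.norm_of_nonneg ArithmeticFunction.vonMangoldt_nonneg, mul_assoc]
      exact mul_le_of_le_one_right ArithmeticFunction.vonMangoldt_nonneg
        (mul_le_one₀ (χ.norm_le_one _) (norm_nonneg _) (hf _))
    refine (norm_sum_le_of_le _ hterm).trans ((le_of_eq ?_).trans
      ((sum_not_coprime r (show 1 ≤ t by omega)).trans ?_))
    · rw [hicc]
      refine sum_congr (filter_congr fun n _ => ?_) fun n _ => rfl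
      rw [ZMod.isUnit_iff_coprime]
    · calc (r.primeFactors.card : ℝ) * Real.log t ≤ 2 * Real.log r * Real.log q :=
            mul_le_mul (card_primeFactors_le r) (Real.log_le_log (Nat.cast_pos.2 (by omega)) htq)
              (Real.log_natCast_nonneg _) (by positivity)
        _ ≤ _ := by
            rw [sq, ← mul_assoc]
            gcongr
  have hgood : ‖∑ n ∈ (Ioc 0 t).filter (fun n : ℕ => IsUnit (n : ZMod r)),
      (Λ n : ℂ) * χ n * f n‖ ≤ 9 * C * √(r : ℝ) * √(t : ℝ) * Real.log q ^ 2 := by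
    have e : (r.totient : ℂ) * ∑ n ∈ (Ioc 0 t).filter (fun n : ℕ => IsUnit (n : ZMod r)),
        (Λ n : ℂ) * χ n * f n = ∑ ψ : DirichletCharacter ℂ r,
          charCoeff f ψ * ∑ n ∈ Ioc 0 t, (Λ n : ℂ) * χ n * ψ n := by
      rw [sum_filter, mul_sum]
      conv_rhs => simp only [mul_sum]
      rw [sum_comm]
      refine sum_congr rfl fun n _ => ?_
      calc (r.totient : ℂ) * (if IsUnit (n : ZMod r) then (Λ n : ℂ) * χ n * f n else 0)
          = (Λ n : ℂ) * χ n * if IsUnit (n : ZMod r) then (r.totient : ℂ) * f n else 0 := by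
            split_ifs <;> ring
        _ = _ := by
            rw [← sum_charCoeff_mul, mul_sum]
            exact sum_congr rfl fun ψ _ => by ring
    have hφ : (0 : ℝ) < r.totient := Nat.cast_pos.2 (Nat.totient_pos.2 (NeZero.pos r))
    refine le_of_mul_le_mul_left ?_ hφ
    calc (r.totient : ℝ) * ‖∑ n ∈ (Ioc 0 t).filter (fun n : ℕ => IsUnit (n : ZMod r)),
          (Λ n : ℂ) * χ n * f n‖
        = ‖(r.totient : ℂ) * ∑ n ∈ (Ioc 0 t).filter (fun n : ℕ => IsUnit (n : ZMod r)),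
          (Λ n : ℂ) * χ n * f n‖ := by rw [norm_mul, Complex.norm_natCast]
      _ ≤ ∑ ψ : DirichletCharacter ℂ r,
          ‖charCoeff f ψ‖ * (C * √(t : ℝ) * (9 * Real.log q ^ 2)) := by
          rw [e]
          refine norm_sum_le_of_le _ fun ψ _ => ?_
          rw [norm_mul]
          exact mul_le_mul_of_nonneg_left (hpsi ψ) (norm_nonneg _)
      _ ≤ r.totient * √(r : ℝ) * (C * √(t : ℝ) * (9 * Real.log q ^ 2)) := by
          rw [← sum_mul]
          exact mul_le_mul_of_nonneg_right (sum_norm_charCoeff_le hf) (by positivity)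
      _ = _ := by ring
  rw [← sum_filter_add_sum_filter_not (Ioc 0 t) (fun n : ℕ => IsUnit (n : ZMod r))]
  refine (norm_add_le _ _).trans ((add_le_add hgood hbad).trans ?_)
  have h1 : 1 * 1 * Real.log q ^ 2 ≤ √(r : ℝ) * √(t : ℝ) * Real.log q ^ 2 := by gcongr
  linarith

end FA.MVCharSum

end
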